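import Mathlib
import Fermat.Agent.S53.H173.PowerSeries

/-!
# Row HARD, cell LOC, leaf DIM: dimension by parameters (helper506)

Generic part (Mathlib + `S53.H173.PowerSeries`).

* `ringKrullDim_quotient_le_card`: `P` Noetherian local, `I` an ideal, `s` a finite set of elements
  of the maximal ideal such that every prime containing `I` and `s` contains the maximal ideal.
  Then `dim P ⧸ I ≤ #s`  (Krull's height theorem in the form
  `ringKrullDim_le_ringKrullDim_quotient_add_card`).
* `maximalIdeal_le_of_X_mem`: in `𝒪⟦X_i : i ∈ σ⟧` (`σ` finite, `𝒪` local with principal maximal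
  ideal `(ϖ)`), an ideal which contains `C ϖ` and all the variables contains the maximal ideal.
-/

set_option autoImplicit false
set_option linter.style.haveILetI false

namespace Fermat.Agent.S38.H506

open IsLocalRing

/-- **Dimension by parameters.** -/
theorem ringKrullDim_quotient_le_card {P : Type*} [CommRing P] [IsLocalRing P]
    [IsNoetherianRing P] (I : Ideal P) (s : Finset P) (hs : ∀ x ∈ s, x ∈ maximalIdeal P)
    (h : ∀ q : Ideal P, q.IsPrime → I ≤ q → (∀ x ∈ s, x ∈ q) → maximalIdeal P ≤ q) :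
    ringKrullDim (P ⧸ I) ≤ ((s.card : ℕ) : WithBot ℕ∞) := by
  classical
  let π : P →+* P ⧸ I := Ideal.Quotient.mk I
  have hπ : Function.Surjective π := Ideal.Quotient.mk_surjective
  let s' : Finset (P ⧸ I) := s.image π
  have hjac : (s' : Set (P ⧸ I)) ⊆ Ring.jacobson (P ⧸ I) := by
    intro y hy
    obtain ⟨x, hx, rfl⟩ := Finset.mem_image.mp (Finset.mem_coe.mp hy)
    rw [Ring.jacobson_eq_sInf_isMaximal, SetLike.mem_coe, Submodule.mem_sInf]
    intro M hM
    have hM' : Ideal.IsMaximal (M : Ideal (P ⧸ I)) := hM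
    have h1 : (Ideal.comap π M).IsMaximal := Ideal.comap_isMaximal_of_surjective π hπ
    have h2 : Ideal.comap π M = maximalIdeal P := IsLocalRing.eq_maximalIdeal h1
    have hx' : x ∈ Ideal.comap π M := h2 ▸ hs x hx
    exact hx'
  have h1 := ringKrullDim_le_ringKrullDim_quotient_add_card s' hjac
  have h2 : ringKrullDim ((P ⧸ I) ⧸ Ideal.span (s' : Set (P ⧸ I))) ≤ 0 := by
    have : Ring.KrullDimLE 0 ((P ⧸ I) ⧸ Ideal.span (s' : Set (P ⧸ I))) := by
      rw [Ring.krullDimLE_zero_iff]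
      intro 𝔭 h𝔭
      let ρ : P →+* (P ⧸ I) ⧸ Ideal.span (s' : Set (P ⧸ I)) :=
        (Ideal.Quotient.mk (Ideal.span (s' : Set (P ⧸ I)))).comp π
      have hρ : Function.Surjective ρ :=
        Ideal.Quotient.mk_surjective.comp hπ
      have hq : (𝔭.comap ρ).IsPrime := Ideal.comap_isPrime ρ 𝔭
      have hI : I ≤ 𝔭.comap ρ := by
        intro x hx
        rw [Ideal.mem_comap]
        have : π x = 0 := Ideal.Quotient.eq_zero_iff_mem.mpr hx
        simp [ρ, this]
      have hsq : ∀ x ∈ s, x ∈ 𝔭.comap ρ := by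
        intro x hx
        rw [Ideal.mem_comap]
        have h3 : π x ∈ Ideal.span (s' : Set (P ⧸ I)) :=
          Ideal.subset_span (Finset.mem_coe.mpr (Finset.mem_image_of_mem π hx))
        have : ρ x = 0 := Ideal.Quotient.eq_zero_iff_mem.mpr h3
        rw [this]
        exact 𝔭.zero_mem
      have h4 : maximalIdeal P ≤ 𝔭.comap ρ := h _ hq hI hsq
      have h5 : 𝔭.comap ρ = maximalIdeal P :=
        ((IsLocalRing.maximalIdeal.isMaximal P).eq_of_le hq.ne_top h4).symm
      have h6 : 𝔭 = (maximalIdeal P).map ρ := by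
        rw [← h5, Ideal.map_comap_of_surjective ρ hρ]
      rcases Ideal.map_eq_top_or_isMaximal_of_surjective ρ hρ
        (IsLocalRing.maximalIdeal.isMaximal P) with h7 | h7
      · exact absurd (h6.trans h7) h𝔭.ne_top
      · rw [h6]; exact h7
    exact Ring.krullDimLE_iff.mp this
  have h3 : s'.card ≤ s.card := Finset.card_image_le
  calc ringKrullDim (P ⧸ I)
      ≤ ringKrullDim ((P ⧸ I) ⧸ Ideal.span (s' : Set (P ⧸ I))) + s'.card := h1
    _ ≤ 0 + ((s.card : ℕ) : WithBot ℕ∞) := by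
        gcongr
    _ = ((s.card : ℕ) : WithBot ℕ∞) := zero_add _

/-- In `𝒪⟦X_i⟧` an ideal containing `C ϖ` (`𝔪_𝒪 = (ϖ)`) and all variables contains the maximal
ideal. -/
theorem maximalIdeal_le_of_X_mem {σ : Type*} [Finite σ] {𝒪 : Type*} [CommRing 𝒪] [IsLocalRing 𝒪]
    (ϖ : 𝒪) (hϖ : maximalIdeal 𝒪 = Ideal.span {ϖ}) (q : Ideal (MvPowerSeries σ 𝒪))
    (hC : MvPowerSeries.C ϖ ∈ q) (hX : ∀ i : σ, (MvPowerSeries.X i : MvPowerSeries σ 𝒪) ∈ q) :
    maximalIdeal (MvPowerSeries σ 𝒪) ≤ q := by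
  intro f hf
  rw [Fermat.Agent.S53.H173.mem_maximalIdeal_iff_constantCoeff, hϖ,
    Ideal.mem_span_singleton] at hf
  obtain ⟨u, hu⟩ := hf
  have h1 : f - MvPowerSeries.C (MvPowerSeries.constantCoeff f) ∈
      (Ideal.span (Set.range (MvPowerSeries.X : σ → MvPowerSeries σ 𝒪))) ^ 1 := by
    refine Fermat.Agent.S53.H173.mem_span_X_pow_of_coeff_eq_zero 1 _ fun e he => ?_
    have he0 : e = 0 := by
      have : e.degree = 0 := by omega
      exact (Finsupp.degree_eq_zero_iff e).mp this
    subst he0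
    simp
  rw [pow_one] at h1
  have h2 : Ideal.span (Set.range (MvPowerSeries.X : σ → MvPowerSeries σ 𝒪)) ≤ q := by
    rw [Ideal.span_le]
    rintro _ ⟨i, rfl⟩
    exact hX i
  have h3 : MvPowerSeries.C (MvPowerSeries.constantCoeff f) ∈ q := by
    rw [hu, map_mul]
    exact q.mul_mem_right _ hC
  have := q.add_mem (h2 h1) h3
  simpa using this

end Fermat.Agent.S38.H506
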