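import Fermat.Agent.S38.IA.Spec2
import Fermat.Agent.S38.H506.DimParam

/-!
# Row HARD, cell LOC, leaf DIM (helper506): `iaLocDim : IALocDimStatement`

`dim 𝒪⟦v, w, x⟧ ⧸ typeIdeal δ ≤ 1 + 3 k + g`.

Proof: Krull's height theorem (`ringKrullDim_quotient_le_card`) with the `1 + g + 3 k` parameters
`ϖ`, `x_i`, and `w_{q,0}`, `w_{q,1} + v_{q,2}`, `w_{q,2} + v_{q,1}` for every pivot `q`.
A prime `𝔮` containing them and the type ideal contains `δ_q ∈ (ϖ)`, hence `Q(v_q)`, and modulo `𝔮`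
the minors read `v₀ v₂ = 0`, `v₀ v₁ = 0`, `v₁² = v₂²`; with `v₀² + v₁ v₂ = 0` this forces
`v = 0`, `w = 0`.  So `𝔮` is the maximal ideal.
-/

set_option autoImplicit false
set_option linter.style.haveILetI false

namespace Fermat.Agent.S38.H506

open IsLocalRing Fermat.Agent.S38.IA

/-- A type value lies in the maximal ideal (`p` odd, residue characteristic `p`). -/
theorem typeValue_mem_maximalIdeal {𝒪 : Type} [CommRing 𝒪] [IsLocalRing 𝒪] (p q : ℕ)
    [Fact p.Prime] (hp2 : p ≠ 2) (hp𝒪 : (p : 𝒪) ∈ maximalIdeal 𝒪) (δ : 𝒪)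
    (hδ : IsTypeValue p q δ) : δ ∈ maximalIdeal 𝒪 := by
  obtain ⟨ζ, -, ⟨m, hm⟩, -, h2⟩ := hδ
  have hpk : ((p : ℕ) : ResidueField 𝒪) = 0 := by
    have := (residue_eq_zero_iff (p : 𝒪)).mpr hp𝒪
    simpa using this
  haveI : CharP (ResidueField 𝒪) p := (CharP.charP_iff_prime_eq_zero Fact.out).mpr hpk
  have hζ : residue 𝒪 ζ = 1 := by
    have h1 : (residue 𝒪 ζ - 1) ^ p ^ m = 0 := by
      rw [sub_pow_char_pow, ← map_pow, hm]
      simp
    exact sub_eq_zero.mp (pow_eq_zero_iff (pow_ne_zero _ (Fact.out : p.Prime).ne_zero) |>.mp h1)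
  have h3 : residue 𝒪 (2 * δ * ζ) = residue 𝒪 (ζ ^ 2 - 1) := by rw [h2]
  simp only [map_mul, map_sub, map_pow, map_one, hζ, mul_one, one_pow, sub_self] at h3
  have h4 : (residue 𝒪 (2 : 𝒪)) ≠ 0 := by
    intro h
    have h5 : ((2 : ℕ) : ResidueField 𝒪) = 0 := by
      rw [Nat.cast_ofNat, ← map_ofNat (residue 𝒪) 2]
      exact h
    have h6 : p ∣ 2 := (CharP.cast_eq_zero_iff (ResidueField 𝒪) p 2).mp h5
    exact hp2 ((Nat.prime_dvd_prime_iff_eq Fact.out Nat.prime_two).mp h6)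
  have h5 : residue 𝒪 δ = 0 := by
    rcases mul_eq_zero.mp h3 with h | h
    · exact absurd h h4
    · exact h
  exact (residue_eq_zero_iff δ).mp h5

/-- The linear algebra behind the parameters. -/
theorem vw_eq_zero_of_params {B : Type*} [CommRing B] [IsDomain B] (a b : Fin 3 → B)
    (h0 : b 0 = 0) (h1 : b 1 + a 2 = 0) (h2 : b 2 + a 1 = 0)
    (hQ : a 0 ^ 2 + a 1 * a 2 = 0)
    (hm : ∀ i j : Fin 3, b i * a j - b j * a i = 0) :
    (∀ j, a j = 0) ∧ ∀ j, b j = 0 := by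
  have hb1 : b 1 = -a 2 := eq_neg_of_add_eq_zero_left h1
  have hb2 : b 2 = -a 1 := eq_neg_of_add_eq_zero_left h2
  have m01 : a 2 * a 0 = 0 := by
    have := hm 0 1
    rw [h0, hb1] at this
    linear_combination this
  have m12 : a 1 ^ 2 = a 2 ^ 2 := by
    have := hm 1 2
    rw [hb1, hb2] at this
    linear_combination this
  have ha : a 0 = 0 ∧ a 1 = 0 ∧ a 2 = 0 := by
    rcases mul_eq_zero.mp m01 with h | h
    · -- a 2 = 0
      have h1' : a 1 = 0 := by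
        have : a 1 ^ 2 = 0 := by rw [m12, h]; ring
        exact pow_eq_zero_iff (two_ne_zero) |>.mp this
      have h0' : a 0 = 0 := by
        have : a 0 ^ 2 = 0 := by
          rw [h, mul_zero, add_zero] at hQ
          exact hQ
        exact pow_eq_zero_iff (two_ne_zero) |>.mp this
      exact ⟨h0', h1', h⟩
    · -- a 0 = 0
      have h12 : a 1 * a 2 = 0 := by
        rw [h] at hQ
        simpa using hQ
      rcases mul_eq_zero.mp h12 with h' | h'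
      · have : a 2 ^ 2 = 0 := by rw [← m12, h']; ring
        exact ⟨h, h', pow_eq_zero_iff (two_ne_zero) |>.mp this⟩
      · have : a 1 ^ 2 = 0 := by rw [m12, h']; ring
        exact ⟨h, pow_eq_zero_iff (two_ne_zero) |>.mp this, h'⟩
  obtain ⟨ha0, ha1, ha2⟩ := ha
  refine ⟨fun j => ?_, fun j => ?_⟩
  · fin_cases j
    · exact ha0
    · exact ha1
    · exact ha2
  · fin_cases j
    · exact h0
    · show b 1 = 0
      rw [hb1, ha2, neg_zero]
    · show b 2 = 0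
      rw [hb2, ha1, neg_zero]

/-- **LOC-DIM** (verbatim). -/
theorem iaLocDim : IALocDimStatement := by
  intro p _ hp2 𝒪 _ _ _ _ _ hp𝒪 Piv _hPiv g δ hδ
  classical
  obtain ⟨ϖ, hϖ⟩ := IsDiscreteValuationRing.exists_irreducible 𝒪
  have hmax : maximalIdeal 𝒪 = Ideal.span {ϖ} := hϖ.maximalIdeal_eq
  -- the parameters
  let par : Unit ⊕ (Fin g ⊕ (Piv × Fin 3)) → LocAmb 𝒪 Piv g := fun t =>
    match t with
    | Sum.inl _ => MvPowerSeries.C ϖ
    | Sum.inr (Sum.inl i) => MvPowerSeries.X (Sum.inr i)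
    | Sum.inr (Sum.inr (q, j)) =>
        if j = 0 then wVar 𝒪 g q 0
        else if j = 1 then wVar 𝒪 g q 1 + vVar 𝒪 g q 2
        else wVar 𝒪 g q 2 + vVar 𝒪 g q 1
  let s : Finset (LocAmb 𝒪 Piv g) := Finset.univ.image par
  have hcard : s.card ≤ 1 + 3 * Piv.card + g := by
    have h1 : s.card ≤ Fintype.card (Unit ⊕ (Fin g ⊕ (Piv × Fin 3))) :=
      Finset.card_image_le.trans (le_of_eq (Finset.card_univ))
    have h2 : Fintype.card (Unit ⊕ (Fin g ⊕ (Piv × Fin 3))) = 1 + 3 * Piv.card + g := by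
      simp only [Fintype.card_sum, Fintype.card_unit, Fintype.card_fin, Fintype.card_prod,
        Fintype.card_coe]
      ring
    exact h1.trans (le_of_eq h2)
  have hCϖ : (MvPowerSeries.C ϖ : LocAmb 𝒪 Piv g) ∈ maximalIdeal (LocAmb 𝒪 Piv g) := by
    rw [Fermat.Agent.S53.H173.mem_maximalIdeal_iff_constantCoeff, MvPowerSeries.constantCoeff_C,
      hmax]
    exact Ideal.mem_span_singleton_self ϖ
  have hXm : ∀ i, (MvPowerSeries.X i : LocAmb 𝒪 Piv g) ∈ maximalIdeal (LocAmb 𝒪 Piv g) :=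
    fun i => Fermat.Agent.S53.H173.X_mem_maximalIdeal i
  have hs : ∀ x ∈ s, x ∈ maximalIdeal (LocAmb 𝒪 Piv g) := by
    intro x hx
    obtain ⟨t, -, rfl⟩ := Finset.mem_image.mp hx
    rcases t with _ | i | ⟨q, j⟩
    · exact hCϖ
    · exact hXm _
    · show (if j = 0 then wVar 𝒪 g q 0
        else if j = 1 then wVar 𝒪 g q 1 + vVar 𝒪 g q 2
        else wVar 𝒪 g q 2 + vVar 𝒪 g q 1) ∈ _
      split_ifs
      · exact hXm _
      · exact Ideal.add_mem _ (hXm _) (hXm _)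
      · exact Ideal.add_mem _ (hXm _) (hXm _)
  have key := ringKrullDim_quotient_le_card (typeIdeal 𝒪 g δ) s hs ?_
  · refine key.trans ?_
    exact_mod_cast hcard
  -- every prime containing the type ideal and the parameters is the maximal ideal
  intro 𝔮 h𝔮 hI hsq
  have hpar : ∀ t, par t ∈ 𝔮 := fun t => hsq _ (Finset.mem_image_of_mem par (Finset.mem_univ t))
  have hC : (MvPowerSeries.C ϖ : LocAmb 𝒪 Piv g) ∈ 𝔮 := hpar (Sum.inl ())
  have hCδ : ∀ q : Piv, (MvPowerSeries.C (δ q) : LocAmb 𝒪 Piv g) ∈ 𝔮 := by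
    intro q
    have h1 := typeValue_mem_maximalIdeal p (q : ℕ) hp2 hp𝒪 (δ q) (hδ q)
    rw [hmax, Ideal.mem_span_singleton] at h1
    obtain ⟨u, hu⟩ := h1
    rw [hu, map_mul]
    exact 𝔮.mul_mem_right _ hC
  have hvw : ∀ q : Piv, (∀ j, vVar 𝒪 g q j ∈ 𝔮) ∧ ∀ j, wVar 𝒪 g q j ∈ 𝔮 := by
    intro q
    have hmk : ∀ x : LocAmb 𝒪 Piv g, x ∈ 𝔮 ↔ Ideal.Quotient.mk 𝔮 x = 0 :=
      fun x => Ideal.Quotient.eq_zero_iff_mem.symm
    have h0 : Ideal.Quotient.mk 𝔮 (wVar 𝒪 g q 0) = 0 := by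
      rw [← hmk]
      have := hpar (Sum.inr (Sum.inr (q, 0)))
      simpa [par] using this
    have h1 : Ideal.Quotient.mk 𝔮 (wVar 𝒪 g q 1) + Ideal.Quotient.mk 𝔮 (vVar 𝒪 g q 2) = 0 := by
      rw [← map_add, ← hmk]
      have := hpar (Sum.inr (Sum.inr (q, 1)))
      simpa [par] using this
    have h2 : Ideal.Quotient.mk 𝔮 (wVar 𝒪 g q 2) + Ideal.Quotient.mk 𝔮 (vVar 𝒪 g q 1) = 0 := by
      rw [← map_add, ← hmk]
      have := hpar (Sum.inr (Sum.inr (q, 2)))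
      simpa [par] using this
    have hQ : Ideal.Quotient.mk 𝔮 (vVar 𝒪 g q 0) ^ 2 +
        Ideal.Quotient.mk 𝔮 (vVar 𝒪 g q 1) * Ideal.Quotient.mk 𝔮 (vVar 𝒪 g q 2) = 0 := by
      have h3 : qV 𝒪 g q - MvPowerSeries.C (δ q) ^ 2 ∈ 𝔮 :=
        hI (Ideal.subset_span (Or.inl ⟨q, rfl⟩))
      have h4 : qV 𝒪 g q ∈ 𝔮 := by
        have := 𝔮.add_mem h3 (𝔮.pow_mem_of_mem (hCδ q) 2 (by norm_num))
        simpa using this
      rw [← map_pow, ← map_mul, ← map_add, ← hmk]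
      exact h4
    have hm : ∀ i j : Fin 3,
        Ideal.Quotient.mk 𝔮 (wVar 𝒪 g q i) * Ideal.Quotient.mk 𝔮 (vVar 𝒪 g q j) -
          Ideal.Quotient.mk 𝔮 (wVar 𝒪 g q j) * Ideal.Quotient.mk 𝔮 (vVar 𝒪 g q i) = 0 := by
      intro i j
      rw [← map_mul, ← map_mul, ← map_sub, ← hmk]
      exact hI (Ideal.subset_span (Or.inr ⟨q, i, j, rfl⟩))
    haveI := h𝔮
    have := vw_eq_zero_of_params (B := LocAmb 𝒪 Piv g ⧸ 𝔮)
      (fun j => Ideal.Quotient.mk 𝔮 (vVar 𝒪 g q j))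
      (fun j => Ideal.Quotient.mk 𝔮 (wVar 𝒪 g q j)) h0 h1 h2 hQ hm
    exact ⟨fun j => (hmk _).mpr (this.1 j), fun j => (hmk _).mpr (this.2 j)⟩
  refine maximalIdeal_le_of_X_mem ϖ hmax 𝔮 hC ?_
  rintro (⟨q, j⟩ | i)
  · fin_cases j
    · exact (hvw q).1 0
    · exact (hvw q).1 1
    · exact (hvw q).1 2
    · exact (hvw q).2 0
    · exact (hvw q).2 1
    · exact (hvw q).2 2
  · exact hpar (Sum.inr (Sum.inl i))

end Fermat.Agent.S38.H506
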